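import Mathlib
import Fermat.Prelude.Def_EllipticCurve_FrobeniusTrace

/-!
# Existence of Frobenius elements in `Gal(ℚ̄/ℚ)` at every prime

For every prime `ℓ` there is a valuation subring `A` of `ℚ̄` lying over `ℓ`, and for every such `A`
there is a Frobenius element `σ` at `A`.
-/

set_option autoImplicit false
set_option linter.style.haveILetI false

noncomputable section

open Polynomial
open scoped Pointwise

namespace Fermat.Agent.GaloisBasics

/-- The field of algebraic numbers. -/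
local notation "Qb" => AlgebraicClosure ℚ
/-- The ring of algebraic integers. -/
local notation "Zb" => integralClosure ℤ (AlgebraicClosure ℚ)

/-- `ℚ̄ / ℚ` is algebraic. -/
instance isAlgebraic_Qbar : Algebra.IsAlgebraic ℚ (AlgebraicClosure ℚ) :=
  AlgebraicClosure.isAlgebraic ℚ

instance isAlgClosure_Qbar : IsAlgClosure ℚ (AlgebraicClosure ℚ) :=
  ⟨inferInstance, inferInstance⟩

/-- Integrality can be tested on valuation subrings. -/
theorem mem_integralClosure_of_forall_valuationSubring {K : Type*} [Field K] (x : K)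
    (h : ∀ W : ValuationSubring K, x ∈ W) : x ∈ integralClosure ℤ K := by
  by_contra hx
  have hcl : IsIntegrallyClosedIn (integralClosure ℤ K).toSubring K :=
    inferInstanceAs (IsIntegrallyClosedIn (integralClosure ℤ K) K)
  obtain ⟨V, -, hV⟩ := Subring.exists_le_valuationSubring_of_isIntegrallyClosedIn
    (R := (integralClosure ℤ K).toSubring) (x := x) hx
  exact hV (h V)

theorem integralClosure_le_valuationSubring {K : Type*} [Field K] (W : ValuationSubring K)
    {x : K} (hx : x ∈ integralClosure ℤ K) : x ∈ W := by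
  have hx' : IsIntegral ℤ x := hx
  have : IsIntegral W x := hx'.tower_top
  obtain ⟨y, hy⟩ := IsIntegrallyClosed.isIntegral_iff.mp this
  rw [← hy]
  exact y.2

theorem mem_integralClosure_of_div {K : Type*} [Field K] [CharZero K]
    (V : ValuationSubring K) {x : K} (hxV : x ∈ V) (hx : IsAlgebraic ℤ x) :
    ∃ b : K, b ∈ integralClosure ℤ K ∧ x * b ∈ integralClosure ℤ K ∧ b ∉ V.nonunits := by
  obtain ⟨f₀, hf₀, hfx₀⟩ := hx
  -- replace by the primitive part
  set f := f₀.primPart with hf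
  have hfx : aeval x f = 0 := by
    have h1 : aeval x f₀ = (f₀.content : K) * aeval x f := by
      conv_lhs => rw [f₀.eq_C_content_mul_primPart]
      rw [map_mul, aeval_C]
      simp [hf]
    rw [h1] at hfx₀
    rcases mul_eq_zero.mp hfx₀ with h | h
    · exact absurd (content_eq_zero_iff.mp (by exact_mod_cast h)) hf₀
    · exact h
  have hprim : f.IsPrimitive := f₀.isPrimitive_primPart
  -- the Horner sums
  let y : ℕ → K := fun j => aeval x (divX^[j] f)
  have hcoeff : ∀ j, (divX^[j] f).coeff 0 = f.coeff j := by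
    intro j
    have : ∀ j i, (divX^[j] f).coeff i = f.coeff (i + j) := by
      intro j
      induction j with
      | zero => intro i; simp
      | succ j ih =>
        intro i
        rw [Function.iterate_succ_apply', coeff_divX, ih]
        congr 1; omega
    simpa using this j 0
  have hrec : ∀ j, y j = x * y (j + 1) + (f.coeff j : K) := by
    intro j
    have h1 : divX^[j] f = X * divX^[j+1] f + C (f.coeff j) := by
      rw [Function.iterate_succ_apply', ← hcoeff j]
      exact (X_mul_divX_add _).symm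
    show aeval x (divX^[j] f) = _
    rw [h1]
    simp [y]
  have hy0 : y 0 = 0 := hfx
  have hyint : ∀ j, y j ∈ integralClosure ℤ K := by
    intro j
    refine mem_integralClosure_of_forall_valuationSubring _ fun W => ?_
    by_cases hxW : x ∈ W
    · show aeval x (divX^[j] f) ∈ W
      rw [aeval_eq_sum_range]
      refine sum_mem fun i _ => ?_
      rw [zsmul_eq_mul]
      exact mul_mem (intCast_mem W _) (pow_mem hxW i)
    · have hxW' : x⁻¹ ∈ W := (W.mem_or_inv_mem x).resolve_left hxW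
      have hx0 : x ≠ 0 := by rintro rfl; exact hxW W.zero_mem
      induction j with
      | zero => rw [hy0]; exact W.zero_mem
      | succ j ih =>
        have : y (j + 1) = x⁻¹ * (y j - (f.coeff j : K)) := by
          rw [hrec j, add_sub_cancel_right, ← mul_assoc, inv_mul_cancel₀ hx0, one_mul]
        rw [this]
        exact mul_mem hxW' (sub_mem ih (intCast_mem W _))
  by_contra hcon
  push Not at hcon
  have hnon : ∀ j, y j ∈ V.nonunits := by
    intro j
    rcases j with _ | j
    · rw [hy0]; show V.valuation 0 < 1; simp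
    · refine hcon (y (j+1)) (hyint _) ?_
      have : x * y (j + 1) = y j - (f.coeff j : K) := by rw [hrec j]; ring
      rw [this]
      exact sub_mem (hyint j) (by
        have : ((f.coeff j : ℤ) : K) = algebraMap ℤ K (f.coeff j) := by simp
        rw [this]; exact Subalgebra.algebraMap_mem _ _)
  -- all coefficients are non-units of `V`
  have hval : ∀ j, V.valuation (f.coeff j : K) < 1 := by
    intro j
    have h1 : (f.coeff j : K) = y j - x * y (j+1) := by rw [hrec j]; ring
    rw [h1]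
    refine lt_of_le_of_lt (Valuation.map_sub _ _ _) (max_lt (hnon j) ?_)
    rw [map_mul]
    exact (mul_le_of_le_one_left' ((V.valuation_le_one_iff x).mpr hxV)).trans_lt (hnon (j+1))
  let I : Ideal ℤ :=
    { carrier := {n | V.valuation (n : K) < 1}
      add_mem' := by
        intro a b ha hb
        simp only [Set.mem_ofPred_eq, Int.cast_add] at ha hb ⊢
        exact lt_of_le_of_lt (Valuation.map_add _ _ _) (max_lt ha hb)
      zero_mem' := by simp
      smul_mem' := by
        intro c a ha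
        simp only [Set.mem_ofPred_eq, smul_eq_mul, Int.cast_mul, map_mul] at ha ⊢
        exact (mul_le_of_le_one_left' ((V.valuation_le_one_iff _).mpr (intCast_mem V _))).trans_lt ha }
  obtain ⟨d, hd⟩ := (IsPrincipalIdealRing.principal I).principal
  have hdvd : ∀ j, d ∣ f.coeff j := by
    intro j
    have : f.coeff j ∈ I := hval j
    rw [hd] at this
    exact Ideal.mem_span_singleton.mp this
  have hunit : IsUnit d := hprim d ((C_dvd_iff_dvd_coeff d f).mpr hdvd)
  have h1 : (1 : ℤ) ∈ I := by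
    rw [hd]
    exact Ideal.mem_span_singleton.mpr hunit.dvd
  have h2 : V.valuation ((1 : ℤ) : K) < 1 := h1
  simp at h2

/-- The ideal of `Zb` cut out by the maximal ideal of a valuation subring. -/
def idealOf (V : ValuationSubring Qb) : Ideal Zb where
  carrier := {x | (x : Qb) ∈ V.nonunits}
  add_mem' := fun {a b} ha hb => by
    simp only [Set.mem_ofPred_eq] at ha hb ⊢
    exact V.nonunits.add_mem ha hb
  zero_mem' := V.nonunits.zero_mem
  smul_mem' := fun c a ha => by
    simp only [Set.mem_ofPred_eq] at ha ⊢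
    show V.valuation ((c : Qb) * (a : Qb)) < 1
    rw [map_mul]
    exact (mul_le_of_le_one_left' ((V.valuation_le_one_iff _).mpr
      (integralClosure_le_valuationSubring V c.2))).trans_lt ha

theorem mem_idealOf {V : ValuationSubring Qb} {x : Zb} :
    x ∈ idealOf V ↔ (x : Qb) ∈ V.nonunits := Iff.rfl

instance idealOf_isPrime (V : ValuationSubring Qb) : (idealOf V).IsPrime where
  ne_top' := by
    rw [Ne, Ideal.eq_top_iff_one, mem_idealOf]
    intro h
    have h2 : V.valuation (1 : Qb) < 1 := h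
    simp at h2
  mem_or_mem' := by
    intro x y hxy
    rw [mem_idealOf, mem_idealOf]
    rw [mem_idealOf] at hxy
    have h1 : V.valuation ((x : Qb) * (y : Qb)) < 1 := hxy
    by_contra hcon
    push Not at hcon
    have hx : V.valuation (x : Qb) = 1 := le_antisymm ((V.valuation_le_one_iff _).mpr
      (integralClosure_le_valuationSubring V x.2)) (not_lt.mp hcon.1)
    have hy : V.valuation (y : Qb) = 1 := le_antisymm ((V.valuation_le_one_iff _).mpr
      (integralClosure_le_valuationSubring V y.2)) (not_lt.mp hcon.2)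
    rw [map_mul, hx, hy] at h1
    simp at h1

instance isInvariant_Zb : Algebra.IsInvariant ℤ Zb (Qb ≃ₐ[ℚ] Qb) where
  isInvariant := by
    intro b hb
    have h1 : (b : Qb) ∈ Set.range (algebraMap ℚ Qb) := by
      rw [InfiniteGalois.mem_range_algebraMap_iff_fixed]
      intro g
      exact congrArg Subtype.val (hb g)
    obtain ⟨q, hq⟩ := h1
    have hqi : IsIntegral ℤ q := by
      have h2 : IsIntegral ℤ (algebraMap ℚ Qb q) := by rw [hq]; exact b.2
      exact (isIntegral_algebraMap_iff (algebraMap ℚ Qb).injective).mp h2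
    obtain ⟨n, hn⟩ := IsIntegrallyClosed.isIntegral_iff.mp hqi
    refine ⟨n, Subtype.ext ?_⟩
    rw [← hq, ← hn]
    simp

/-- Existence of Frobenius lifts on algebraic integers. -/
theorem exists_frobenius_Zb {ℓ : ℕ} (hℓ : ℓ.Prime) (V : ValuationSubring Qb)
    (hV : V.LiesOverPrime ℓ) :
    ∃ σ : Qb ≃ₐ[ℚ] Qb, σ ∈ MulAction.stabilizer (Qb ≃ₐ[ℚ] Qb) (idealOf V) ∧
      ∀ x : Zb, σ • x - x ^ ℓ ∈ idealOf V := by
  letI : TopologicalSpace Zb := ⊥
  haveI : DiscreteTopology Zb := ⟨rfl⟩
  haveI : ContinuousSMul (Qb ≃ₐ[ℚ] Qb) Zb := by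
    rw [continuousSMul_iff_stabilizer_isOpen]
    intro x
    convert stabilizer_isOpen_of_isIntegral (K := ℚ) (L := Qb) (x : Qb) using 1
    ext g
    simp only [SetLike.mem_coe, MulAction.mem_stabilizer_iff]
    exact Subtype.ext_iff
  set Q := idealOf V with hQ
  have hℓQ : (ℓ : Zb) ∈ Q := by
    rw [hQ, mem_idealOf]
    exact_mod_cast hV
  haveI : CharP (Zb ⧸ Q) ℓ := by
    have h0 : ((ℓ : ℕ) : Zb ⧸ Q) = 0 := by
      have := Ideal.Quotient.eq_zero_iff_mem.mpr hℓQ
      simpa using this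
    exact (CharP.charP_iff_prime_eq_zero hℓ).mpr h0
  haveI : Fact ℓ.Prime := ⟨hℓ⟩
  haveI : ExpChar (Zb ⧸ Q) ℓ := ExpChar.prime hℓ
  have hinj : Function.Injective (frobenius (Zb ⧸ Q) ℓ) := frobenius_inj _ _
  have hsurj : Function.Surjective (frobenius (Zb ⧸ Q) ℓ) := by
    intro y
    obtain ⟨z, rfl⟩ := Ideal.Quotient.mk_surjective y
    obtain ⟨w, hw⟩ := IsAlgClosed.exists_pow_nat_eq (z : Qb) hℓ.pos
    have hwi : IsIntegral ℤ w := IsIntegral.of_pow hℓ.pos (by rw [hw]; exact z.2)
    refine ⟨Ideal.Quotient.mk Q ⟨w, hwi⟩, ?_⟩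
    rw [frobenius_def, ← map_pow]
    congr 1
    exact Subtype.ext hw
  let F : (Zb ⧸ Q) ≃+* (Zb ⧸ Q) := RingEquiv.ofBijective (frobenius (Zb ⧸ Q) ℓ) ⟨hinj, hsurj⟩
  let Fa : (Zb ⧸ Q) ≃ₐ[ℤ ⧸ Q.under ℤ] (Zb ⧸ Q) :=
    { F with
      commutes' := by
        intro r
        obtain ⟨n, rfl⟩ := Ideal.Quotient.mk_surjective r
        show F ((algebraMap (ℤ ⧸ Q.under ℤ) (Zb ⧸ Q)) (Ideal.Quotient.mk _ n)) =
          (algebraMap (ℤ ⧸ Q.under ℤ) (Zb ⧸ Q)) (Ideal.Quotient.mk _ n)
        have h1 : (Ideal.Quotient.mk (Q.under ℤ) n) = ((n : ℤ) : ℤ ⧸ Q.under ℤ) := by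
          simp
        rw [h1, map_intCast, map_intCast] }
  obtain ⟨σ, hσ⟩ := Ideal.Quotient.stabilizerHom_surjective_of_profinite
    (G := Qb ≃ₐ[ℚ] Qb) (Q.under ℤ) Q Fa
  refine ⟨σ.1, σ.2, fun x => ?_⟩
  rw [← Ideal.Quotient.eq, map_pow]
  exact DFunLike.congr_fun hσ (Ideal.Quotient.mk Q x)

theorem smul_mem_idealOf_iff {V : ValuationSubring Qb} {τ : Qb ≃ₐ[ℚ] Qb}
    (hτ : τ ∈ MulAction.stabilizer (Qb ≃ₐ[ℚ] Qb) (idealOf V)) (b : Zb) :
    τ • b ∈ idealOf V ↔ b ∈ idealOf V := by
  have h1 : τ • idealOf V = idealOf V := hτ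
  conv_lhs => rw [← h1]
  exact Ideal.smul_mem_pointwise_smul_iff

theorem valuation_eq_one_of_notMem {V : ValuationSubring Qb} {b : Qb}
    (hb : b ∈ Zb) (hbV : b ∉ V.nonunits) : V.valuation b = 1 :=
  le_antisymm ((V.valuation_le_one_iff _).mpr (integralClosure_le_valuationSubring V hb))
    (not_lt.mp hbV)

theorem isAlgebraic_int_Qbar (x : Qb) : IsAlgebraic ℤ x :=
  (IsFractionRing.isAlgebraic_iff ℤ ℚ Qb).mpr (Algebra.IsAlgebraic.isAlgebraic (R := ℚ) x)

theorem map_mem_of_mem_stabilizer (V : ValuationSubring Qb)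
    (τ : Qb ≃ₐ[ℚ] Qb) (hτ : τ ∈ MulAction.stabilizer (Qb ≃ₐ[ℚ] Qb) (idealOf V))
    (x : Qb) (hx : x ∈ V) : τ x ∈ V := by
  obtain ⟨b, hb, hxb, hbV⟩ := mem_integralClosure_of_div V hx (isAlgebraic_int_Qbar x)
  have h1 : τ b ∉ V.nonunits := fun h =>
    hbV ((smul_mem_idealOf_iff hτ (⟨b, hb⟩ : Zb)).mp h)
  have h2 : τ b ∈ Zb := (τ • (⟨b, hb⟩ : Zb)).2
  have h3 : τ (x * b) ∈ Zb := (τ • (⟨x * b, hxb⟩ : Zb)).2
  rw [← V.valuation_le_one_iff]
  have h4 : V.valuation (τ x) = V.valuation (τ (x * b)) := by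
    rw [map_mul, map_mul, valuation_eq_one_of_notMem h2 h1, mul_one]
  rw [h4]
  exact (V.valuation_le_one_iff _).mpr (integralClosure_le_valuationSubring V h3)

/-- An element of the Galois group stabilising the prime of `Zb` attached to `V` stabilises `V`. -/
theorem mem_decompositionSubgroup_of_mem_stabilizer (V : ValuationSubring Qb)
    (σ : Qb ≃ₐ[ℚ] Qb) (hσ : σ ∈ MulAction.stabilizer (Qb ≃ₐ[ℚ] Qb) (idealOf V)) :
    σ ∈ V.decompositionSubgroup ℚ := by
  rw [MulAction.mem_stabilizer_iff]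
  refine SetLike.coe_injective ?_
  rw [ValuationSubring.coe_pointwise_smul]
  refine Set.Subset.antisymm ?_ ?_
  · rintro _ ⟨x, hx, rfl⟩
    exact map_mem_of_mem_stabilizer V σ hσ x hx
  · intro x hx
    refine ⟨σ⁻¹ x, map_mem_of_mem_stabilizer V σ⁻¹ (inv_mem hσ) x hx, ?_⟩
    show σ (σ⁻¹ x) = x
    exact σ.apply_symm_apply x

/-- **Existence of Frobenius elements**, at every valuation subring above `ℓ`. -/
theorem exists_isFrobeniusAt {ℓ : ℕ} (hℓ : ℓ.Prime) (V : ValuationSubring Qb)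
    (hV : V.LiesOverPrime ℓ) : ∃ σ : Qb ≃ₐ[ℚ] Qb, V.IsFrobeniusAt σ ℓ := by
  obtain ⟨σ, hσ, hF⟩ := exists_frobenius_Zb hℓ V hV
  refine ⟨σ, mem_decompositionSubgroup_of_mem_stabilizer V σ hσ, fun y => ?_⟩
  obtain ⟨x, rfl⟩ := IsLocalRing.residue_surjective y
  obtain ⟨b, hb, hxb, hbV⟩ := mem_integralClosure_of_div V x.2 (isAlgebraic_int_Qbar x)
  have hbV' : b ∈ V := integralClosure_le_valuationSubring V hb
  set D := V.decompositionSubgroup ℚ
  set σ' : D := ⟨σ, mem_decompositionSubgroup_of_mem_stabilizer V σ hσ⟩ with hσ'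
  -- reduce to an equality in the residue field
  have key : ∀ z : V, (z : Qb) ∈ Zb →
      IsLocalRing.residue V (σ' • z) = (IsLocalRing.residue V z) ^ ℓ := by
    intro z hz
    rw [← map_pow, ← sub_eq_zero, ← map_sub, IsLocalRing.residue_eq_zero_iff,
      ← ValuationSubring.coe_mem_nonunits_iff]
    exact hF ⟨z, hz⟩
  have h1 := key ⟨b, hbV'⟩ hb
  have h2 := key (x * (⟨b, hbV'⟩ : V)) hxb
  have hne : IsLocalRing.residue V ⟨b, hbV'⟩ ≠ 0 := by
    rw [Ne, IsLocalRing.residue_eq_zero_iff, ← ValuationSubring.coe_mem_nonunits_iff]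
    exact hbV
  rw [smul_mul', map_mul, h1, map_mul, mul_pow] at h2
  show IsLocalRing.residue V (σ' • x) = _
  exact mul_right_cancel₀ (pow_ne_zero ℓ hne) h2

/-- Existence of valuation subrings above `ℓ`. -/
theorem exists_liesOverPrime {ℓ : ℕ} (hℓ : ℓ.Prime) :
    ∃ V : ValuationSubring Qb, V.LiesOverPrime ℓ := by
  set A : Subring Qb := (Zb).toSubring with hA
  let I : Ideal A := Ideal.span {(⟨(ℓ : Qb), (by
    show (ℓ : Qb) ∈ Zb
    exact natCast_mem _ ℓ)⟩ : A)}
  have hI : I ≠ ⊤ := by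
    rw [Ne, Ideal.eq_top_iff_one, Ideal.mem_span_singleton]
    rintro ⟨⟨c, hc⟩, hc'⟩
    have h1 : (ℓ : Qb) * c = 1 := (congrArg Subtype.val hc').symm
    have hc2 : IsIntegral ℤ c := hc
    have h3 : c = algebraMap ℚ Qb (1 / ℓ) := by
      have hℓ0 : (ℓ : Qb) ≠ 0 := by exact_mod_cast hℓ.ne_zero
      rw [map_div₀, map_one, map_natCast, eq_div_iff hℓ0, mul_comm]
      exact h1
    rw [h3] at hc2
    have h4 : IsIntegral ℤ (1 / ℓ : ℚ) :=
      (isIntegral_algebraMap_iff (algebraMap ℚ Qb).injective).mp hc2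
    obtain ⟨n, hn⟩ := IsIntegrallyClosed.isIntegral_iff.mp h4
    have hℓ0 : (ℓ : ℚ) ≠ 0 := by exact_mod_cast hℓ.ne_zero
    have h5 : (n : ℚ) * ℓ = 1 := by
      have : ((n : ℤ) : ℚ) = 1 / ℓ := by simpa using hn
      rw [this]; field_simp
    have h6 : n * (ℓ : ℤ) = 1 := by exact_mod_cast h5
    have h7 : IsUnit (ℓ : ℤ) := IsUnit.of_mul_eq_one n (by rw [mul_comm]; exact h6)
    have h8 := Int.isUnit_iff_natAbs_eq.mp h7
    simp at h8
    exact hℓ.one_lt.ne' h8
  obtain ⟨B, -, hB⟩ := Ideal.image_subset_nonunits_valuationSubring I hI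
  refine ⟨B, hB ⟨_, Ideal.subset_span rfl, rfl⟩⟩

end Fermat.Agent.GaloisBasics
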